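import Fermat.Agent.MUL.Orig.Lib.GoodRed.Steps
import Fermat.Agent.MUL.S28.RedKernel

/-!
# Cluster B / GoodRed: the sub-steps (L1), (L2) of the LIFT STEP, as statements
Architect: helper37.  Blueprint: NOTES/blueprint-B-GoodRed.md, section 2 (L).
ONLY definitions here.  Owners: L1 `LiftBasis.lean`, L2 `LiftIndex.lean`, L3 `RootsRed.lean`,
L4 (assembly, `LiftStep M n BD`) `Lift.lean`.
-/

set_option autoImplicit false

namespace Fermat.Agent.GoodRed

open Polynomial IntermediateField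
open scoped IntermediateField.algebraAdjoinAdjoin

noncomputable section

variable {K k F Fk : Type} [Field K] [Field k] [Field F] [Field Fk] [Algebra K F] [Algebra k Fk]

namespace RedModel

variable (M : RedModel K k F Fk)

/-- `A[X] → K(x)`, `X ↦ x` (the map used in `CharpolyRed`). -/
def toKx : Polynomial M.A →+* K⟮M.x⟯ :=
  (Polynomial.aeval (⟨M.x, mem_adjoin_simple_self K M.x⟩ : K⟮M.x⟯)).toRingHom.comp
    (Polynomial.mapRingHom M.A.subtype)

/-- `A[X] → k(x̄)`, `X ↦ x̄`, coefficients reduced (the map used in `CharpolyRed`). -/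
def toKxbar : Polynomial M.A →+* k⟮M.xbar⟯ :=
  (Polynomial.aeval (⟨M.xbar, mem_adjoin_simple_self k M.xbar⟩ : k⟮M.xbar⟯)).toRingHom.comp
    (Polynomial.mapRingHom M.res)

end RedModel

/-- (L1) A LIFTED BASIS: `b i ∈ B₀ = O ∩ intCl K x` whose reductions form a `k[x̄]`-basis of `B̄`,
together with the Gram determinant `D ∈ A[X]` of `b`, which reduces to the Gram determinant
of `b̄` and is nonzero there (separability). -/
structure LiftedBasis (M : RedModel K k F Fk) (n : ℕ) where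
  b : Fin n → F
  mem_O : ∀ i, b i ∈ M.O
  mem_int : ∀ i, b i ∈ intCl K M.x
  basis : IsBbarBasis M n (fun i => M.rho ⟨b i, mem_O i⟩)
  indep : LinearIndependent K⟮M.x⟯ b
  D : Polynomial M.A
  D_gram : M.toKx D = gramDet K⟮M.x⟯ F b
  D_gram_bar : M.toKxbar D = gramDet k⟮M.xbar⟯ Fk (fun i => M.rho ⟨b i, mem_O i⟩)
  D_bar_ne : D.map M.res ≠ 0

/-- (L1) as a `Prop`: a lifted basis exists.  (From `CharpolyRed M` and `DegData M n`.) -/
def LiftBasisStep (M : RedModel K k F Fk) (n : ℕ) : Prop := Nonempty (LiftedBasis M n)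

/-- (L2) THE INDEX HAS NO ROOT IN `A`.  For a lifted basis `b` there are a `K[x]`-basis `β` of the
integral closure `intCl K x`, with Gram determinant `dK(x)`, and `I ∈ K[X]` (the determinant of the
transition matrix) with `D = I² · dK` and `I(c) ≠ 0` for all `c ∈ A`. -/
def IndexNoRoot (M : RedModel K k F Fk) (n : ℕ) (LB : LiftedBasis M n) : Prop :=
  ∃ (β : Fin n → F) (I dK : Polynomial K),
    (∀ i, β i ∈ intCl K M.x) ∧ LinearIndependent K⟮M.x⟯ β ∧
    (∀ y ∈ intCl K M.x, ∃ c : Fin n → Algebra.adjoin K {M.x}, y = ∑ i, c i • β i) ∧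
    Polynomial.aeval (⟨M.x, mem_adjoin_simple_self K M.x⟩ : K⟮M.x⟯) dK = gramDet K⟮M.x⟯ F β ∧
    LB.D.map M.A.subtype = I ^ 2 * dK ∧
    ∀ c : K, c ∈ M.A → I.eval c ≠ 0

-- (L3) ROOTS AND REDUCTION is DONE: `Lib/GoodRed/RootsRed.lean` (helper7),
-- `rootMultiplicity_map_res`, `rootMultiplicity_map_res_eq_sum`, `not_isRoot_map_res`.

end

end Fermat.Agent.GoodRed
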